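import Fermat.Agent.A2.Mod.Asm
import Fermat.Agent.A2.Mod.H751.Fricke
import Fermat.Agent.A2.Mod.H873.L13
import Fermat.Agent.S15.H422.UnitFricke
import Fermat.Agent.S15.H422.UnitInt
import Fermat.Agent.S28.H589.UnitPoly
import Fermat.Agent.A2.H528.FrobCong
import Fermat.Agent.A2.Mod.H142.S2Side
import Fermat.Agent.S28.H807.Analytic

/-!
# S36 / leaf MU (= UNIT): the modular unit `u = Δ(t^q)/Δ(t)` in the language of A2/MOD  (helper438)

Level `N`, `q ∣ N` (`N = q * M'`), `E ⊆ Q̄` any intermediate field, `P` any valuation subring of `Q̄`.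

* `uE E N q hqN : FE E N`, `uE' E N q hqN : FE E N` : the elements of `F_{N,E}` with `t`-expansions
  `Δ(t^q)/Δ(t)` and `Δ(t)/Δ(t^q)` (images of the INTEGRAL series `S28.unitL ℤ q`, `S28.H589.unitL' q`);
  `uE_mul_uE' : u * u' = 1`.
* `uE_mem_vinf`, `uE'_mem_vinf` : both lie in the Gauss valuation ring `V∞` (`IsVinf`), i.e. `u` is a
  unit of `V∞`  (`V₁(u) = 0`).
* `coe_fricke_uE` : for every Fricke involution `W` of level `N = q * M'` (`IsFricke`),
  `W u = q⁻¹² · u'(t^{M'})`, and `W u' = q¹² · u(t^{M'})`.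
* `qpow_mul_uE_mem_vzero`, `inv_qpow_mul_uE_mem_vzero` : `q¹² u` is a unit of `V₀ = V∞.comap W`
  (`V₂(u) = -12 v(q)`).
* `qpow_mul_uE_mem_of_x_mem`, `uE'_mem_of_x_mem` : `D = q¹² u` and `D' = u'` lie in every valuation
  subring of `F_N` containing `x = j · j_q`; `qpow_mul_uE_mem_chart`, `uE'_mem_chart` : they lie in
  the finite chart `chartAlg P E (M * q) (xE E M q)`;  `D · D' = q¹²`  (the unit pair).
* `castK_unitL_eq_pow` : in characteristic `q`, `Δ(t^q)/Δ(t) = Δ(t)^(q-1)`.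
-/

set_option autoImplicit false
set_option synthInstance.maxHeartbeats 400000
set_option maxHeartbeats 1600000

noncomputable section

namespace Fermat.Agent.S36.H438

open ModularCurve HahnSeries Polynomial
open Fermat.Agent.A2.Mod Fermat.Agent.S28

/-! ## 1. The integral series -/

section Series

variable (q : ℕ) [NeZero q]

/-- `Δ(t^q)/Δ(t) · Δ(t)/Δ(t^q) = 1` over `ℤ`. -/
theorem unitL_mul_unitL' : unitL ℤ q * H589.unitL' q = 1 := by
  have h1 : deltaL ℤ * deltaInvL ℤ = 1 := h88_deltaL_mul_deltaInvL ℤ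
  have h2 : qExpand ℤ q (deltaL ℤ) * qExpand ℤ q (deltaInvL ℤ) = 1 := by
    rw [← map_mul, h1, map_one]
  calc unitL ℤ q * H589.unitL' q
      = (qExpand ℤ q (deltaL ℤ) * qExpand ℤ q (deltaInvL ℤ)) * (deltaL ℤ * deltaInvL ℤ) := by
        rw [unitL, H589.unitL']; ring
    _ = 1 := by rw [h1, h2, mul_one]

/-- In characteristic `q` (coefficients in `ZMod q`): `Δ(t^q)/Δ(t) = Δ(t)^(q-1)`. -/
theorem unitL_zmod_eq_pow [hq : Fact q.Prime] :
    unitL (ZMod q) q = deltaL (ZMod q) ^ (q - 1) := by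
  have h1 : deltaL (ZMod q) * deltaInvL (ZMod q) = 1 := h88_deltaL_mul_deltaInvL (ZMod q)
  have hq1 : deltaL (ZMod q) ^ q = deltaL (ZMod q) ^ (q - 1) * deltaL (ZMod q) := by
    rw [← pow_succ, Nat.sub_add_cancel hq.out.one_le]
  rw [unitL, Fermat.Agent.A2.H528.qExpand_eq_pow_zmod, hq1, mul_assoc, h1, mul_one]

/-- In characteristic `q`, any coefficient ring `k`: `Δ(t^q)/Δ(t) = Δ(t)^(q-1)`. -/
theorem castK_unitL_eq_pow [hq : Fact q.Prime] (k : Type*) [CommRing k] [CharP k q] :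
    coeffMap (Int.castRingHom k) (unitL ℤ q) = deltaL k ^ (q - 1) := by
  have h := congrArg (coeffMap (ZMod.castHom (dvd_refl q) k)) (unitL_zmod_eq_pow q)
  rw [h88_coeffMap_unitL, map_pow, h88_coeffMap_deltaL] at h
  rw [h88_coeffMap_unitL]
  exact h

end Series

/-! ## 2. The elements `u`, `u'` of `F_{N,E}` -/

section Elements

variable (E : IntermediateField ℚ Qb)

/-- The coefficient map `ℤ((t)) → E((t))`. -/
abbrev castE : LaurentSeries ℤ →+* LaurentSeries E := coeffMap (Int.castRingHom E)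

theorem castE_eq_coeffEmb (X : LaurentSeries ℤ) :
    castE E X = coeffEmb E (coeffMap (Int.castRingHom ℚ) X) := by
  rw [coeffEmb, coeffMap_coeffMap]
  exact coeffMap_congr (Subsingleton.elim _ _) X

theorem coeffMap_castE (X : LaurentSeries ℤ) :
    coeffMap (algebraMap E Qb) (castE E X) = coeffMap (Int.castRingHom Qb) X := by
  rw [castE, coeffMap_coeffMap]
  exact coeffMap_congr (Subsingleton.elim _ _) X

theorem castE_mul_castE' (q : ℕ) [NeZero q] :
    castE E (unitL ℤ q) * castE E (H589.unitL' q) = 1 := by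
  rw [← map_mul, unitL_mul_unitL', map_one]

theorem castE_unitL_ne_zero (q : ℕ) [NeZero q] : castE E (unitL ℤ q) ≠ 0 := by
  intro h
  have := castE_mul_castE' E q
  rw [h, zero_mul] at this
  exact zero_ne_one this

theorem castE_unitL'_eq_inv (q : ℕ) [NeZero q] :
    castE E (H589.unitL' q) = (castE E (unitL ℤ q))⁻¹ :=
  eq_inv_of_mul_eq_one_right (castE_mul_castE' E q)

theorem laurentBaseChange_mono_h438 (L : Type*) [Field L] [Algebra ℚ L]
    {F₀ F₁ : IntermediateField ℚ (LaurentSeries ℚ)} (h : F₀ ≤ F₁) :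
    laurentBaseChange L F₀ ≤ laurentBaseChange L F₁ :=
  IntermediateField.adjoin.mono L _ _ (Set.image_mono h)

/-- `Δ(t^q)/Δ(t)` over `Q̄` lies in the function field of level `q`. -/
theorem unitL_bar_mem (q : ℕ) [NeZero q] :
    unitL Qb q ∈ laurentBaseChange Qb (modularFunctionFieldFull q) := by
  have h : Fermat.Agent.S15.H422.uSer q ∈ laurentBaseChange Qb (modularFunctionFieldFull q) :=
    Fermat.Agent.S15.H422.uSer_mem q
  rw [Fermat.Agent.S15.H422.uSer_eq_unitL] at h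
  have hc : ((q : LaurentSeries Qb) ^ 12) ∈ laurentBaseChange Qb (modularFunctionFieldFull q) :=
    pow_mem (natCast_mem _ q) 12
  have hc0 : ((q : LaurentSeries Qb) ^ 12) ≠ 0 := by
    refine pow_ne_zero _ ?_
    rw [← map_natCast (algebraMap Qb (LaurentSeries Qb))]
    exact (map_ne_zero_iff _ (algebraMap Qb (LaurentSeries Qb)).injective).mpr
      (Nat.cast_ne_zero.mpr (NeZero.ne q))
  have h2 := mul_mem (inv_mem hc) h
  rwa [← mul_assoc, inv_mul_cancel₀ hc0, one_mul] at h2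

/-- `Δ(t^q)/Δ(t)` over `E` lies in the function field of level `q`. -/
theorem castE_unitL_mem_level (q : ℕ) [NeZero q] : castE E (unitL ℤ q) ∈ FE E q := by
  refine Fermat.Agent.S29.H882.mem_laurentBaseChange_of_coeffMap_mem (algebraMap E Qb)
    (modularFunctionFieldFull q) ?_
  rw [coeffMap_castE, h88_coeffMap_unitL]
  exact unitL_bar_mem q

/-- `Δ(t^q)/Δ(t)` over `E` lies in the function field of every level `N` divisible by `q`. -/
theorem castE_unitL_mem (N q : ℕ) [NeZero N] [NeZero q] (hqN : q ∣ N) :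
    castE E (unitL ℤ q) ∈ FE E N :=
  laurentBaseChange_mono_h438 E (full_degeneracy_le hqN) (castE_unitL_mem_level E q)

theorem castE_unitL'_mem (N q : ℕ) [NeZero N] [NeZero q] (hqN : q ∣ N) :
    castE E (H589.unitL' q) ∈ FE E N := by
  rw [castE_unitL'_eq_inv]
  exact inv_mem (castE_unitL_mem E N q hqN)

/-- **The modular unit** `u = Δ(t^q)/Δ(t)` as an element of `F_{N,E}`, `q ∣ N`. -/
def uE (N q : ℕ) [NeZero N] [NeZero q] (hqN : q ∣ N) : FE E N :=
  ⟨castE E (unitL ℤ q), castE_unitL_mem E N q hqN⟩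

/-- **The inverse modular unit** `u' = Δ(t)/Δ(t^q)` as an element of `F_{N,E}`, `q ∣ N`. -/
def uE' (N q : ℕ) [NeZero N] [NeZero q] (hqN : q ∣ N) : FE E N :=
  ⟨castE E (H589.unitL' q), castE_unitL'_mem E N q hqN⟩

variable (N q : ℕ) [NeZero N] [NeZero q] (hqN : q ∣ N)

@[simp] theorem coe_uE : ((uE E N q hqN : FE E N) : LaurentSeries E) = castE E (unitL ℤ q) := rfl

@[simp] theorem coe_uE' :
    ((uE' E N q hqN : FE E N) : LaurentSeries E) = castE E (H589.unitL' q) := rfl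

theorem uE_mul_uE' : uE E N q hqN * uE' E N q hqN = 1 :=
  Subtype.ext (castE_mul_castE' E q)

theorem uE_ne_zero : uE E N q hqN ≠ 0 := fun h =>
  castE_unitL_ne_zero E q (congrArg Subtype.val h)

theorem uE'_eq_inv : uE' E N q hqN = (uE E N q hqN)⁻¹ :=
  eq_inv_of_mul_eq_one_right (uE_mul_uE' E N q hqN)

theorem uE_inv : (uE E N q hqN)⁻¹ = uE' E N q hqN := (uE'_eq_inv E N q hqN).symm

end Elements

/-! ## 3. `u` is a unit of the Gauss valuation ring `V∞` -/

section Gauss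

variable (P : ValuationSubring Qb) (E : IntermediateField ℚ Qb)

/-- The image in `E((t))` of an integral series is Gauss-integral (any level). -/
theorem isGaussInt_castE (F₀ : IntermediateField ℚ (LaurentSeries ℚ)) (X : LaurentSeries ℤ) :
    Fermat.Agent.A2.H708.IsGaussInt (RE P E) F₀ (castE E X) := by
  have h := Fermat.Agent.A2.H708.IsGaussInt.of_incl (A := RE P E) (F₀ := F₀)
    (Fermat.Agent.A2.H708.castA (RE P E) X)
  rwa [Fermat.Agent.A2.H708.incl_castA, ← castE_eq_coeffEmb] at h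

/-- An element of `F_{N,E}` whose `t`-expansion has integral coefficients lies in `V∞`. -/
theorem mem_vinf_of_coe_eq_castE {N : ℕ} {V : ValuationSubring (FE E N)}
    (hV : IsVinf P E N V) {f : FE E N} {X : LaurentSeries ℤ}
    (hf : (f : LaurentSeries E) = castE E X) : f ∈ V := by
  rw [hV f, hf]
  exact isGaussInt_castE P E _ X

variable (N q : ℕ) [NeZero N] [NeZero q] (hqN : q ∣ N)

theorem uE_mem_vinf {V : ValuationSubring (FE E N)} (hV : IsVinf P E N V) :
    uE E N q hqN ∈ V :=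
  mem_vinf_of_coe_eq_castE P E hV (coe_uE E N q hqN)

theorem uE'_mem_vinf {V : ValuationSubring (FE E N)} (hV : IsVinf P E N V) :
    uE' E N q hqN ∈ V :=
  mem_vinf_of_coe_eq_castE P E hV (coe_uE' E N q hqN)

/-- **MU (1)**: `u` is a unit of `V∞`. -/
theorem uE_unit_vinf {V : ValuationSubring (FE E N)} (hV : IsVinf P E N V) :
    uE E N q hqN ∈ V ∧ (uE E N q hqN)⁻¹ ∈ V :=
  ⟨uE_mem_vinf P E N q hqN hV, by rw [uE_inv]; exact uE'_mem_vinf P E N q hqN hV⟩

end Gauss

/-! ## 4. The Fricke involution: `W u = q⁻¹² · u'(t^{M'})` -/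

section Fricke

open Fermat.Agent.A2.Mod.H751 Fermat.Agent.S24 Fermat.Agent.A2.H528

variable (E : IntermediateField ℚ Qb) (q : ℕ) [NeZero q]

theorem castBar_mul_castBar' :
    coeffMap (Int.castRingHom Qb) (unitL ℤ q) * coeffMap (Int.castRingHom Qb) (H589.unitL' q)
      = 1 := by
  rw [← map_mul, unitL_mul_unitL', map_one]

/-- `S15.H422.gSer q = Δ(t)/Δ(t^q)` is the image of the integral series `unitL' q`. -/
theorem gSer_eq_castBar :
    Fermat.Agent.S15.H422.gSer q = coeffMap (Int.castRingHom Qb) (H589.unitL' q) := by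
  have h1 := Fermat.Agent.S15.H422.uSer_mul_gSer q
  rw [Fermat.Agent.S15.H422.uSer_eq_unitL] at h1
  have hC : (HahnSeries.C ((q : Kbar) ^ 12) : LaurentSeries Kbar)
      = (q : LaurentSeries Kbar) ^ 12 := by
    rw [map_pow, map_natCast]
  rw [hC] at h1
  have hc0 : ((q : LaurentSeries Qb) ^ 12) ≠ 0 := by
    refine pow_ne_zero _ ?_
    rw [← map_natCast (algebraMap Qb (LaurentSeries Qb))]
    exact (map_ne_zero_iff _ (algebraMap Qb (LaurentSeries Qb)).injective).mpr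
      (Nat.cast_ne_zero.mpr (NeZero.ne q))
  have h2 : unitL Kbar q * Fermat.Agent.S15.H422.gSer q = 1 := by
    apply mul_left_cancel₀ hc0
    rw [← mul_assoc, h1, mul_one]
  have h3 := castBar_mul_castBar' q
  rw [h88_coeffMap_unitL] at h3
  have hu0 : unitL Kbar q ≠ 0 := by
    intro h
    rw [h, zero_mul] at h2
    exact zero_ne_one h2
  exact mul_left_cancel₀ hu0 (h2.trans h3.symm)

/-- `ι u = q⁻¹² · uF` at level `q`. -/
theorem iotaE_uE_level :
    iotaE E q (uE E q q dvd_rfl)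
      = (algebraMap Kbar (FF q) ((q : Kbar) ^ 12))⁻¹ * Fermat.Agent.S15.H422.uF q := by
  have hc0 : algebraMap Kbar (FF q) ((q : Kbar) ^ 12) ≠ 0 :=
    (map_ne_zero_iff _ (algebraMap Kbar (FF q)).injective).mpr
      (pow_ne_zero _ (Nat.cast_ne_zero.mpr (NeZero.ne q)))
  rw [eq_inv_mul_iff_mul_eq₀ hc0]
  apply Subtype.ext
  show algebraMap Kbar (LaurentSeries Kbar) ((q : Kbar) ^ 12)
      * coeffMap (algebraMap E Qb) (castE E (unitL ℤ q)) = Fermat.Agent.S15.H422.uSer q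
  rw [coeffMap_castE, h88_coeffMap_unitL, Fermat.Agent.S15.H422.uSer_eq_unitL, map_pow,
    map_natCast]

/-- `ι u' = gF` at level `q`. -/
theorem iotaE_uE'_level :
    iotaE E q (uE' E q q dvd_rfl) = Fermat.Agent.S15.H422.gF q := by
  apply Subtype.ext
  show coeffMap (algebraMap E Qb) (castE E (H589.unitL' q)) = Fermat.Agent.S15.H422.gSer q
  rw [coeffMap_castE, gSer_eq_castBar]

/-- **Level `q`**: `W_q u = q⁻¹² u'`. -/
theorem frickeE_uE_level :
    frickeE E q (uE E q q dvd_rfl)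
      = algebraMap E (FE E q) ((q : E) ^ 12)⁻¹ * uE' E q q dvd_rfl := by
  apply iotaE_injective E q
  rw [iotaE_frickeE, iotaE_uE_level, map_mul, map_inv₀, AlgEquiv.commutes,
    Fermat.Agent.S15.H422.wF_uF, map_mul, iotaE_uE'_level, iotaE_algebraMap]
  congr 1
  rw [← map_inv₀]
  congr 1

variable (M' : ℕ) [NeZero M']

theorem alpha_uE_level :
    αE E q M' (uE E q q dvd_rfl) = uE E (q * M') q (dvd_mul_right q M') :=
  Subtype.ext (coe_heckeAlphaBar q M' _)

theorem alpha_uE'_level :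
    αE E q M' (uE' E q q dvd_rfl) = uE' E (q * M') q (dvd_mul_right q M') :=
  Subtype.ext (coe_heckeAlphaBar q M' _)

/-- `u'(t^{M'})` as an element of `F_{qM',E}`. -/
def uEβ' : FE E (q * M') := βE E q M' (uE' E q q dvd_rfl)

/-- `u(t^{M'})` as an element of `F_{qM',E}`. -/
def uEβ : FE E (q * M') := βE E q M' (uE E q q dvd_rfl)

theorem coe_uEβ' :
    ((uEβ' E q M' : FE E (q * M')) : LaurentSeries E)
      = castE E (qExpand ℤ M' (H589.unitL' q)) := by
  show ((βE E q M' (uE' E q q dvd_rfl) : FE E (q * M')) : LaurentSeries E) = _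
  rw [coe_heckeBetaBar, coe_uE', castE, coeffMap_qExpand]

theorem coe_uEβ :
    ((uEβ E q M' : FE E (q * M')) : LaurentSeries E)
      = castE E (qExpand ℤ M' (unitL ℤ q)) := by
  show ((βE E q M' (uE E q q dvd_rfl) : FE E (q * M')) : LaurentSeries E) = _
  rw [coe_heckeBetaBar, coe_uE, castE, coeffMap_qExpand]

theorem uEβ_mul_uEβ' : uEβ E q M' * uEβ' E q M' = 1 := by
  rw [uEβ, uEβ', ← map_mul, uE_mul_uE', map_one]

theorem uEβ'_inv : (uEβ' E q M')⁻¹ = uEβ E q M' :=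
  (eq_inv_of_mul_eq_one_left (uEβ_mul_uEβ' E q M')).symm

/-- **MU (2), level `q * M'`**: `W u = q⁻¹² · u'(t^{M'})` for every Fricke involution `W`. -/
theorem fricke_uE (W : FE E (q * M') ≃ₐ[E] FE E (q * M')) (hW : IsFricke E (q * M') W) :
    W (uE E (q * M') q (dvd_mul_right q M'))
      = algebraMap E (FE E (q * M')) ((q : E) ^ 12)⁻¹ * uEβ' E q M' := by
  have h := (frickeCompat E q M' (frickeE E q) W (isFricke_frickeE E q) hW
    (uE E q q dvd_rfl)).1
  rw [alpha_uE_level] at h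
  rw [h, frickeE_uE_level, map_mul, AlgHom.commutes]
  rfl

/-- `W (q¹² u) = u'(t^{M'})`. -/
theorem fricke_qpow_mul_uE (W : FE E (q * M') ≃ₐ[E] FE E (q * M'))
    (hW : IsFricke E (q * M') W) :
    W (algebraMap E (FE E (q * M')) ((q : E) ^ 12) * uE E (q * M') q (dvd_mul_right q M'))
      = uEβ' E q M' := by
  have hc0 : ((q : E) ^ 12) ≠ 0 := pow_ne_zero _ (Nat.cast_ne_zero.mpr (NeZero.ne q))
  rw [map_mul, AlgEquiv.commutes, fricke_uE E q M' W hW, ← mul_assoc, ← map_mul,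
    mul_inv_cancel₀ hc0, map_one, one_mul]

end Fricke

section Vzero

variable (P : ValuationSubring Qb) (E : IntermediateField ℚ Qb) (q : ℕ) [NeZero q]
  (M' : ℕ) [NeZero M']

/-- **MU (2')**: `q¹² u` is a unit of `V₀ = V∞.comap W`  (`V₂(u) = -12 v(q)`), level `q * M'`. -/
theorem qpow_mul_uE_unit_vzero {V : ValuationSubring (FE E (q * M'))}
    (W : FE E (q * M') ≃ₐ[E] FE E (q * M')) (hV : IsVinf P E (q * M') V)
    (hW : IsFricke E (q * M') W) :
    algebraMap E (FE E (q * M')) ((q : E) ^ 12) * uE E (q * M') q (dvd_mul_right q M')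
        ∈ V.comap (W : FE E (q * M') →+* FE E (q * M')) ∧
      (algebraMap E (FE E (q * M')) ((q : E) ^ 12) * uE E (q * M') q (dvd_mul_right q M'))⁻¹
        ∈ V.comap (W : FE E (q * M') →+* FE E (q * M')) := by
  constructor
  · show W _ ∈ V
    rw [fricke_qpow_mul_uE E q M' W hW]
    exact mem_vinf_of_coe_eq_castE P E hV (coe_uEβ' E q M')
  · show W _ ∈ V
    rw [map_inv₀, fricke_qpow_mul_uE E q M' W hW, uEβ'_inv]
    exact mem_vinf_of_coe_eq_castE P E hV (coe_uEβ E q M')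

end Vzero

/-! ## 5. Horizontal part: the unit pair `D = q¹² u`, `D' = u'`, `D · D' = q¹²` -/

section Horizontal

open Fermat.Agent.A2.Mod.H873

open Fermat.Agent.S28.H589 in
/-- The unit polynomial `Ψ ∈ ℤ[Y][X]` (helper589), keeping BOTH vanishing relations:
`q¹² Δ(t^q)/Δ(t)` is integral over `ℤ[j]` and `Δ(t)/Δ(t^q)` is integral over `ℤ[j(t^q)]`. -/
theorem exists_unitPoly_both (p : ℕ) [NeZero p] (hp : p.Prime) :
    ∃ Ψ : Polynomial (Polynomial ℤ), Ψ.Monic ∧
      Ψ.eval₂ (evalAt (jqModC ℤ)) ((p : LaurentSeries ℤ) ^ 12 * unitL ℤ p) = 0 ∧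
      Ψ.eval₂ (evalAt (qExpand ℤ p (jqModC ℤ))) (unitL' p) = 0 := by
  obtain ⟨W, hWm, hWd, h1, h2⟩ := exists_unitPoly_complex p hp
  obtain ⟨m, hm⟩ := exists_order_unitSeriesC' p
  have hord : (unitL' p).order = 1 - p * m := by
    rw [← order_iotaC, iotaC_unit', hm]
  have hf0 : unitL' p ≠ 0 := by
    intro h
    apply unitSeriesC'_ne_zero p
    rw [← iotaC_unit', h, map_zero]
  have hcop : IsCoprime (unitL' p).order (p : ℤ) := by
    rw [hord]
    exact ⟨1, m, by ring⟩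
  have hne : unitL' p ≠ qExpand ℤ p ((p : LaurentSeries ℤ) ^ 12 * unitL ℤ p) := by
    intro h
    have h3 := congrArg iotaC h
    rw [iotaC_unit', iotaC, coeffMap_qExpand] at h3
    obtain ⟨k, hk⟩ := Fermat.Agent.S28.H145.dvd_order_qExpand (k := ℂ) p
      (coeffMap (Int.castRingHom ℂ) ((p : LaurentSeries ℤ) ^ 12 * unitL ℤ p))
    rw [← h3, hm] at hk
    have hp2 : (2 : ℤ) ≤ p := by exact_mod_cast hp.two_le
    have hdvd : (p : ℤ) ∣ 1 := ⟨k + m, by linarith⟩
    have := Int.le_of_dvd one_pos hdvd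
    omega
  obtain ⟨Ψ, hΨm, -, hΨ1, hΨ2⟩ := descent p W hWm (p + 1) hWd rfl
    ((p : LaurentSeries ℤ) ^ 12 * unitL ℤ p) (unitL' p) hf0 hcop hne
    (by rw [iotaC_unit]; exact h1)
    (by rw [iotaC_unit']; exact h2)
  exact ⟨Ψ, hΨm, hΨ1, hΨ2⟩

variable (E : IntermediateField ℚ Qb) (N q : ℕ) [NeZero N] [NeZero q] (hqN : q ∣ N)

/-- `D = q¹² u`. -/
def dE : FE E N := algebraMap E (FE E N) ((q : E) ^ 12) * uE E N q hqN

theorem coe_dE :
    ((dE E N q hqN : FE E N) : LaurentSeries E)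
      = castE E ((q : LaurentSeries ℤ) ^ 12 * unitL ℤ q) := by
  show algebraMap E (LaurentSeries E) ((q : E) ^ 12) * castE E (unitL ℤ q) = _
  rw [map_mul, map_pow, map_pow, map_natCast, map_natCast]

/-- **The unit pair**: `D · D' = q¹²`. -/
theorem dE_mul_uE' :
    dE E N q hqN * uE' E N q hqN = algebraMap E (FE E N) ((q : E) ^ 12) := by
  rw [dE, mul_assoc, uE_mul_uE', mul_one]

theorem dE_ne_zero : dE E N q hqN ≠ 0 :=
  mul_ne_zero ((map_ne_zero_iff _ (algebraMap E (FE E N)).injective).mpr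
    (pow_ne_zero _ (Nat.cast_ne_zero.mpr (NeZero.ne q)))) (uE_ne_zero E N q hqN)

/-- The two integrality relations in `F_{N,E}`: `Ψ(D; j) = 0` and `Ψ(D'; j_q) = 0`, `Ψ` monic. -/
theorem exists_unitPoly_FE (hq : q.Prime) :
    ∃ Ψ : Polynomial (Polynomial ℤ), Ψ.Monic ∧
      Ψ.eval₂ (Polynomial.aeval (R := ℤ) (jE E N 1 (one_dvd N))).toRingHom (dE E N q hqN) = 0 ∧
      Ψ.eval₂ (Polynomial.aeval (R := ℤ) (jE E N q hqN)).toRingHom (uE' E N q hqN) = 0 := by
  obtain ⟨Ψ, hΨ, h1, h2⟩ := exists_unitPoly_both q hq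
  refine ⟨Ψ, hΨ, ?_, ?_⟩
  · exact eval₂_eq_zero_of_int E N Ψ _ _ _ _ (coe_dE E N q hqN) (coe_jE_one E N) h1
  · exact eval₂_eq_zero_of_int E N Ψ _ _ _ _ (coe_uE' E N q hqN) (coe_jE_int E N q hqN) h2

/-- **MU (3a)**: `D = q¹² u` lies in every valuation subring containing `j`. -/
theorem dE_mem_of_j_mem (hq : q.Prime) (V : ValuationSubring (FE E N))
    (hj : jE E N 1 (one_dvd N) ∈ V) : dE E N q hqN ∈ V := by
  obtain ⟨Ψ, hΨ, h1, -⟩ := exists_unitPoly_FE E N q hqN hq
  exact mem_valuationSubring_of_monic_eval Ψ hΨ h1 V hj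

/-- **MU (3b)**: `D' = u'` lies in every valuation subring containing `j_q`. -/
theorem uE'_mem_of_jq_mem (hq : q.Prime) (V : ValuationSubring (FE E N))
    (hjq : jE E N q hqN ∈ V) : uE' E N q hqN ∈ V := by
  obtain ⟨Ψ, hΨ, -, h2⟩ := exists_unitPoly_FE E N q hqN hq
  exact mem_valuationSubring_of_monic_eval Ψ hΨ h2 V hjq

/-- `j ∈ V ↔ j_q ∈ V` for every valuation subring `V` of `F_N` (modular equation). -/
theorem j_mem_iff_jq_mem (hq : q.Prime) (V : ValuationSubring (FE E N)) :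
    jE E N 1 (one_dvd N) ∈ V ↔ jE E N q hqN ∈ V := by
  obtain ⟨D⟩ := Fermat.Agent.S28.H807.nonempty_modPolyData q hq
  have hj : D.Φ.eval₂ (Polynomial.aeval (R := ℤ) (jE E N q hqN)).toRingHom
      (jE E N 1 (one_dvd _)) = 0 :=
    eval₂_eq_zero_of_int E N D.Φ _ _ _ _ (coe_jE_one E N) (coe_jE_int E N q hqN) D.eval_j
  have hjq : D.Φ.eval₂ (Polynomial.aeval (R := ℤ) (jE E N 1 (one_dvd _))).toRingHom
      (jE E N q hqN) = 0 :=
    eval₂_eq_zero_of_int E N D.Φ _ _ _ _ (coe_jE_int E N q hqN) (coe_jE_one E N) D.eval_jp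
  exact ⟨fun h => mem_valuationSubring_of_monic_eval D.Φ D.monic hjq V h,
    fun h => mem_valuationSubring_of_monic_eval D.Φ D.monic hj V h⟩

/-- **MU (3)**: at a place `V ⊇ E` of `F_N` where `j` is finite, `u` is a unit
(no zeros or poles of `u` outside the cusps). -/
theorem uE_unit_of_j_mem (hq : q.Prime) (V : ValuationSubring (FE E N))
    (hE : ∀ e : E, algebraMap E (FE E N) e ∈ V) (hj : jE E N 1 (one_dvd N) ∈ V) :
    uE E N q hqN ∈ V ∧ (uE E N q hqN)⁻¹ ∈ V := by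
  have hc0 : ((q : E) ^ 12) ≠ 0 := pow_ne_zero _ (Nat.cast_ne_zero.mpr (NeZero.ne q))
  refine ⟨?_, ?_⟩
  · have h1 := V.mul_mem _ _ (hE ((q : E) ^ 12)⁻¹) (dE_mem_of_j_mem E N q hqN hq V hj)
    rwa [dE, ← mul_assoc, ← map_mul, inv_mul_cancel₀ hc0, map_one, one_mul] at h1
  · rw [uE_inv]
    exact uE'_mem_of_jq_mem E N q hqN hq V ((j_mem_iff_jq_mem E N q hqN hq V).mp hj)

end Horizontal

section Chart

open Fermat.Agent.A2.Mod.H873

variable (P : ValuationSubring Qb) (E : IntermediateField ℚ Qb) (M q : ℕ) [NeZero M] [NeZero q]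

/-- A valuation subring of `F_{Mq}` containing `x = j · j_q` contains `j` and `j_q`. -/
theorem j_mem_of_x_mem (hq : q.Prime) (V : ValuationSubring (FE E (M * q)))
    (hx : xE E M q ∈ V) :
    jE E (M * q) 1 (one_dvd _) ∈ V ∧ jE E (M * q) q (dvd_mul_left q M) ∈ V := by
  have hiff := j_mem_iff_jq_mem E (M * q) q (dvd_mul_left q M) hq V
  by_cases hj : jE E (M * q) 1 (one_dvd _) ∈ V
  · exact ⟨hj, hiff.mp hj⟩
  · exfalso
    have hinv : (jE E (M * q) 1 (one_dvd _))⁻¹ ∈ V := (V.mem_or_inv_mem _).resolve_left hj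
    have hj0 : jE E (M * q) 1 (one_dvd _) ≠ 0 := jE_ne_zero E (M * q) 1 (one_dvd _)
    have hjq : jE E (M * q) q (dvd_mul_left q M) ∈ V := by
      have h := V.mul_mem _ _ hinv hx
      rwa [xE, ← mul_assoc, inv_mul_cancel₀ hj0, one_mul] at h
    exact hj (hiff.mpr hjq)

/-- **MU (3c)**: `D = q¹² u` lies in the finite chart of the coordinate `x = j · j_q`. -/
theorem dE_mem_chartAlg (hq : q.Prime) :
    dE E (M * q) q (dvd_mul_left q M) ∈ chartAlg P E (M * q) (xE E M q) := by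
  rw [← Fermat.Agent.A2.Mod.H142.mem_chart_iff]
  refine isIntegralElem_of_isIntegral_closure _
    (isIntegral_closure_of_forall_valuationSubring fun V hx => ?_)
  exact dE_mem_of_j_mem E (M * q) q _ hq V (j_mem_of_x_mem E M q hq V hx).1

/-- **MU (3d)**: `D' = u'` lies in the finite chart of the coordinate `x = j · j_q`. -/
theorem uE'_mem_chartAlg (hq : q.Prime) :
    uE' E (M * q) q (dvd_mul_left q M) ∈ chartAlg P E (M * q) (xE E M q) := by
  rw [← Fermat.Agent.A2.Mod.H142.mem_chart_iff]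
  refine isIntegralElem_of_isIntegral_closure _
    (isIntegral_closure_of_forall_valuationSubring fun V hx => ?_)
  exact uE'_mem_of_jq_mem E (M * q) q _ hq V (j_mem_of_x_mem E M q hq V hx).2

end Chart

/-! ## 6. General level `N = q * M'` (e.g. `N = M * q`), and the packaged statement -/

section Package

variable (P : ValuationSubring Qb) (E : IntermediateField ℚ Qb)

/-- **MU (2'), any level `N = q * M'`**: `D = q¹² u` is a unit of `V₀ = V∞.comap W`. -/
theorem dE_unit_vzero (N q M' : ℕ) [NeZero N] [NeZero q] [NeZero M'] (hN : N = q * M')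
    (hqN : q ∣ N) {V : ValuationSubring (FE E N)} (W : FE E N ≃ₐ[E] FE E N)
    (hV : IsVinf P E N V) (hW : IsFricke E N W) :
    dE E N q hqN ∈ V.comap (W : FE E N →+* FE E N) ∧
      (dE E N q hqN)⁻¹ ∈ V.comap (W : FE E N →+* FE E N) := by
  subst hN
  exact qpow_mul_uE_unit_vzero P E q M' W hV hW

/-- `W D = u'(t^{M'})` in `t`-expansions, any level `N = q * M'`. -/
theorem coe_fricke_dE (N q M' : ℕ) [NeZero N] [NeZero q] [NeZero M'] (hN : N = q * M')
    (hqN : q ∣ N) (W : FE E N ≃ₐ[E] FE E N) (hW : IsFricke E N W) :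
    ((W (dE E N q hqN) : FE E N) : LaurentSeries E)
      = castE E (qExpand ℤ M' (H589.unitL' q)) := by
  subst hN
  have h := fricke_qpow_mul_uE E q M' W hW
  rw [← coe_uEβ' E q M', ← h]
  rfl

/-- **MU (1'), the pair at `V∞`**: `D' = u'` is a unit of `V∞`, and `D = q¹² u ∈ V∞`. -/
theorem uE'_unit_vinf (N q : ℕ) [NeZero N] [NeZero q] (hqN : q ∣ N)
    {V : ValuationSubring (FE E N)} (hV : IsVinf P E N V) :
    uE' E N q hqN ∈ V ∧ (uE' E N q hqN)⁻¹ ∈ V := by
  refine ⟨uE'_mem_vinf P E N q hqN hV, ?_⟩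
  rw [uE'_eq_inv, inv_inv]
  exact uE_mem_vinf P E N q hqN hV

/-- **Leaf MU, packaged at level `M * q`** (`q` prime; `q ∤ M` is NOT needed):
the unit pair `D = q¹² Δ(t^q)/Δ(t)`, `D' = Δ(t)/Δ(t^q)` of the finite chart `B = chartAlg x`,
`x = j · j_q`:  `D · D' = q¹²`, `D' ∈ (V∞)ˣ`, `D ∈ (V₀)ˣ` for `V₀ = V∞.comap W`, and at every
place `V ⊇ E` of `F_{Mq}` with `j ∈ V` both are units (no horizontal zeros in the finite chart). -/
theorem mu_package (M q : ℕ) [NeZero M] [NeZero q] (hq : q.Prime) :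
    ∃ D D' : FE E (M * q),
      (D : LaurentSeries E) = castE E ((q : LaurentSeries ℤ) ^ 12 * unitL ℤ q) ∧
      (D' : LaurentSeries E) = castE E (H589.unitL' q) ∧
      D * D' = algebraMap E (FE E (M * q)) ((q : E) ^ 12) ∧
      D ∈ chartAlg P E (M * q) (xE E M q) ∧
      D' ∈ chartAlg P E (M * q) (xE E M q) ∧
      (∀ V : ValuationSubring (FE E (M * q)), IsVinf P E (M * q) V → D' ∈ V ∧ D'⁻¹ ∈ V) ∧
      (∀ (V : ValuationSubring (FE E (M * q))) (W : FE E (M * q) ≃ₐ[E] FE E (M * q)),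
        IsVinf P E (M * q) V → IsFricke E (M * q) W →
          D ∈ V.comap (W : FE E (M * q) →+* FE E (M * q)) ∧
          D⁻¹ ∈ V.comap (W : FE E (M * q) →+* FE E (M * q))) ∧
      (∀ V : ValuationSubring (FE E (M * q)), (∀ e : E, algebraMap E (FE E (M * q)) e ∈ V) →
        jE E (M * q) 1 (one_dvd _) ∈ V → (D ∈ V ∧ D⁻¹ ∈ V) ∧ (D' ∈ V ∧ D'⁻¹ ∈ V)) := by
  have hqN : q ∣ M * q := dvd_mul_left q M
  have hc0 : ((q : E) ^ 12) ≠ 0 := pow_ne_zero _ (Nat.cast_ne_zero.mpr (NeZero.ne q))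
  refine ⟨dE E (M * q) q hqN, uE' E (M * q) q hqN, coe_dE E (M * q) q hqN,
    coe_uE' E (M * q) q hqN, dE_mul_uE' E (M * q) q hqN, dE_mem_chartAlg P E M q hq,
    uE'_mem_chartAlg P E M q hq, fun V hV => uE'_unit_vinf P E (M * q) q hqN hV,
    fun V W hV hW => dE_unit_vzero P E (M * q) q M (Nat.mul_comm M q) hqN W hV hW,
    fun V hE hj => ?_⟩
  obtain ⟨hu, hu'⟩ := uE_unit_of_j_mem E (M * q) q hqN hq V hE hj
  rw [uE_inv] at hu'
  refine ⟨⟨dE_mem_of_j_mem E (M * q) q hqN hq V hj, ?_⟩, ⟨hu', ?_⟩⟩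
  · rw [dE, mul_inv, uE_inv, ← map_inv₀]
    exact V.mul_mem _ _ (hE _) hu'
  · rw [uE'_eq_inv, inv_inv]
    exact hu

end Package

/-! ## 7. Reduction: `ū = Δ̄^(q-1)` in characteristic `q` -/

section Reduction

variable (P : ValuationSubring Qb) (E : IntermediateField ℚ Qb) (q : ℕ) [NeZero q]

/-- The reduction of the integral series `Δ(t^q)/Δ(t)` modulo the maximal ideal of `R_E`
is `Δ̄(t)^(q-1)`, when the residue field has characteristic `q`. -/
theorem red_unitL_eq_pow [Fact q.Prime] [CharP (IsLocalRing.ResidueField (RE P E)) q] :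
    Fermat.Agent.A2.H708.red (RE P E) (Fermat.Agent.A2.H708.castA (RE P E) (unitL ℤ q))
      = deltaL (IsLocalRing.ResidueField (RE P E)) ^ (q - 1) := by
  rw [← castK_unitL_eq_pow q (IsLocalRing.ResidueField (RE P E))]
  show coeffMap _ (coeffMap _ (unitL ℤ q)) = _
  rw [coeffMap_coeffMap]
  exact coeffMap_congr (Subsingleton.elim _ _) _

end Reduction

end Fermat.Agent.S36.H438

end
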