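import Fermat.Agent.S36.H438.Unit
import Fermat.Agent.S36.Reg.H968.Hasse
import Fermat.Agent.A2.Mod.H378.L11

/-!
# S36 / R3 leaf HUP: the reduction of the modular unit on the second component  (helper438)

`u' = Δ(t)/Δ(t^q)`, `D = q¹² Δ(t^q)/Δ(t)`; level `N = q * M'`, Fricke involution `W`,
`V₀ = V∞.comap W`.

* `exists_hasseMod`      : for EVERY prime `q`, `Δ̄^{-(q-1)} = H̄(j̄)` in `𝔽_q((t))`, `H̄ ∈ 𝔽_q[X]`
  (HASSE `Reg.H968.hasse` for `q ≥ 5`; `E₄ ≡ 1 mod q` for `q = 2, 3`);
* `monic_natDegree_of_aeval_eq` : such an `H̄` is monic of degree `q - 1` (leading terms of the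
  `t`-expansions);
* `hassePoly q : ℤ[X]`   : a monic lift of degree `q - 1`; `hassePoly_spec`:
  `Δ(t)/Δ(t^q) = H(j) + q · G` in `ℤ((t))`;
* `fricke_dE_sub_hasse`  : `W (D - H(j_q)) = q · g`, `g` with integral `t`-expansion;
* `dE_sub_hasse_inW`     : `(D - H(j_q)) / q ∈ V₀`  — i.e. `D ≡ H(j_q)` on the component `C₀`;
* `jqE_mem_chartAlg`, `dE_sub_hasse_mem_cut` : chart form (`B = chartAlg x`, `p₀ = IsCut w V₀ B`).
-/

set_option autoImplicit false
set_option synthInstance.maxHeartbeats 400000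
set_option maxHeartbeats 1600000

noncomputable section

namespace Fermat.Agent.S36.H438

open ModularCurve HahnSeries Polynomial
open Fermat.Agent.A2.Mod Fermat.Agent.S28

/-! ## 1. Series level -/

section Series

/-- A Laurent series over `ℤ` vanishing modulo `q` is divisible by `q`. -/
theorem exists_eq_C_mul_of_coeffMap_zmod_eq_zero (q : ℕ) (X : LaurentSeries ℤ)
    (h0 : coeffMap (Int.castRingHom (ZMod q)) X = 0) :
    ∃ G : LaurentSeries ℤ, X = HahnSeries.C (q : ℤ) * G := by
  have hdvd : ∀ k : ℤ, (q : ℤ) ∣ X.coeff k := by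
    intro k
    have h1 := congrArg (fun s => s.coeff k) h0
    simp only [coeffMap_coeff, HahnSeries.coeff_zero, eq_intCast] at h1
    exact (ZMod.intCast_zmod_eq_zero_iff_dvd _ _).mp h1
  refine ⟨X.map (Fermat.Agent.A2.H528.divPrime q), ?_⟩
  ext k
  rw [HahnSeries.C_mul_eq_smul, HahnSeries.coeff_smul, HahnSeries.map_coeff, smul_eq_mul]
  show X.coeff k = (q : ℤ) * (X.coeff k / q)
  rw [Int.mul_ediv_cancel' (hdvd k)]

variable (K : Type*) [CommRing K]

/-- `Δ⁻ⁿ = t⁻ⁿ · (unit power series)ⁿ`. -/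
theorem deltaInvL_pow (n : ℕ) :
    deltaInvL K ^ n = HahnSeries.single (-(n : ℤ)) 1 *
      HahnSeries.ofPowerSeries ℤ K ((dedekindEtaUnitInv.map (Int.castRingHom K)) ^ n) := by
  rw [deltaInvL, mul_pow, HahnSeries.single_pow, one_pow, ← map_pow]
  congr 2
  simp


theorem constantCoeff_etaInv_map :
    PowerSeries.constantCoeff (dedekindEtaUnitInv.map (Int.castRingHom K)) = 1 := by
  rw [← PowerSeries.coeff_zero_eq_constantCoeff, PowerSeries.coeff_map,
    PowerSeries.coeff_zero_eq_constantCoeff, constantCoeff_dedekindEtaUnitInv, map_one]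

theorem coeff_deltaInvL_pow_self (n : ℕ) : (deltaInvL K ^ n).coeff (-(n : ℤ)) = 1 := by
  rw [deltaInvL_pow, HahnSeries.coeff_single_mul, one_mul, sub_neg_eq_add, neg_add_cancel,
    show (0 : ℤ) = ((0 : ℕ) : ℤ) from rfl, HahnSeries.ofPowerSeries_apply_coeff,
    PowerSeries.coeff_zero_eq_constantCoeff, map_pow, constantCoeff_etaInv_map, one_pow]

theorem coeff_deltaInvL_pow_of_lt {n : ℕ} {m : ℤ} (hm : m < -(n : ℤ)) :
    (deltaInvL K ^ n).coeff m = 0 := by
  rw [deltaInvL_pow, HahnSeries.coeff_single_mul, one_mul]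
  exact ofPowerSeries_coeff_of_neg _ (by omega)

theorem algebraMap_laurent_eq_single (c : K) :
    algebraMap K (LaurentSeries K) c = HahnSeries.single 0 c := by
  have h1 : algebraMap K (PowerSeries K) c = PowerSeries.C c := by simp
  rw [HahnSeries.algebraMap_apply', h1, HahnSeries.ofPowerSeries_C]
  rfl

/-- The coefficient of `t^{-m}` in `p(j)` is `p_m`, as soon as `m ≥ deg p`. -/
theorem coeff_aeval_jqModC_of_le (p : Polynomial K) {m : ℕ} (hm : p.natDegree ≤ m) :
    (Polynomial.aeval (jqModC K) p).coeff (-(m : ℤ)) = p.coeff m := by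
  rw [Polynomial.aeval_def, Polynomial.eval₂_eq_sum_range, HahnSeries.coeff_sum]
  rcases hm.eq_or_lt with h | h
  · rw [Finset.sum_eq_single m]
    · rw [algebraMap_laurent_eq_single, HahnSeries.coeff_single_zero_mul,
        coeff_jqModC_pow_self, mul_one]
    · intro i hi him
      have hilt : i < m := by
        have := Finset.mem_range.mp hi
        omega
      rw [algebraMap_laurent_eq_single, HahnSeries.coeff_single_zero_mul,
        coeff_jqModC_pow_of_lt, mul_zero]
      omega
    · intro hn'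
      exact absurd (by rw [Finset.mem_range]; omega) hn'
  · rw [Polynomial.coeff_eq_zero_of_natDegree_lt h]
    refine Finset.sum_eq_zero fun i hi => ?_
    have hilt : i < m := by
      have := Finset.mem_range.mp hi
      omega
    rw [algebraMap_laurent_eq_single, HahnSeries.coeff_single_zero_mul,
      coeff_jqModC_pow_of_lt, mul_zero]
    omega

/-- If `Δ⁻ⁿ = p(j)` then `p` is monic of degree `n`. -/
theorem monic_natDegree_of_aeval_eq [Nontrivial K] (p : Polynomial K) (n : ℕ)
    (h : deltaInvL K ^ n = Polynomial.aeval (jqModC K) p) : p.Monic ∧ p.natDegree = n := by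
  have hdeg : p.natDegree = n := by
    rcases lt_trichotomy p.natDegree n with hlt | heq | hgt
    · exfalso
      have h1 := coeff_aeval_jqModC_of_le K p hlt.le
      rw [← h, coeff_deltaInvL_pow_self, Polynomial.coeff_eq_zero_of_natDegree_lt hlt] at h1
      exact one_ne_zero h1
    · exact heq
    · exfalso
      have h1 := coeff_aeval_jqModC_of_le K p le_rfl
      rw [← h, coeff_deltaInvL_pow_of_lt K (by omega)] at h1
      have hp0 : p ≠ 0 := by
        intro h0
        rw [h0, Polynomial.natDegree_zero] at hgt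
        omega
      exact hp0 (Polynomial.leadingCoeff_eq_zero.mp h1.symm)
  refine ⟨?_, hdeg⟩
  have h1 := coeff_aeval_jqModC_of_le K p hdeg.le
  rw [← h, coeff_deltaInvL_pow_self] at h1
  rw [Polynomial.Monic, Polynomial.leadingCoeff, hdeg]
  exact h1.symm


/-- `E₄ ≡ 1` modulo any commutative ring in which `240 = 0`. -/
theorem eisenstein4_map_eq_one_h438 (h : (240 : K) = 0) :
    PowerSeries.map (Int.castRingHom K) eisenstein4 = 1 := by
  ext n
  rw [PowerSeries.coeff_map, eisenstein4, PowerSeries.coeff_mk, PowerSeries.coeff_one]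
  split_ifs with hn
  · simp
  · rw [map_mul]
    have : (Int.castRingHom K) 240 = 0 := by
      rw [eq_intCast]
      exact_mod_cast h
    rw [this, zero_mul]

/-- `j ≡ Δ⁻¹` modulo any commutative ring in which `240 = 0` (`q = 2, 3, 5`). -/
theorem jqModC_eq_deltaInvL_h438 (h : (240 : K) = 0) : jqModC K = deltaInvL K := by
  unfold jqModC deltaInvL
  have h1 : PowerSeries.map (Int.castRingHom K) jNum =
      PowerSeries.map (Int.castRingHom K) dedekindEtaUnitInv := by
    rw [jNum, map_mul, map_pow, eisenstein4_map_eq_one_h438 K h, one_pow, one_mul]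
  simp only [PowerSeries.map] at h1 ⊢
  rw [h1]

end Series

/-! ## 2. The Hasse polynomial, uniformly in `q` -/

section Hasse

open Fermat.Agent.S36.Reg

variable (q : ℕ) [NeZero q]

/-- **HASSE, all primes**: `Δ̄^{-(q-1)}` is a polynomial in `j̄` over `𝔽_q`. -/
theorem exists_hasseMod (hq : q.Prime) :
    ∃ Hq : Polynomial (ZMod q),
      deltaInvL (ZMod q) ^ (q - 1) = Polynomial.aeval (jqModC (ZMod q)) Hq := by
  by_cases h5 : 5 ≤ q
  · obtain ⟨f, hf⟩ := Fermat.Agent.S36.Reg.H968.hasse q hq h5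
    refine ⟨X ^ (4 * hasseDelta q) * (X - Polynomial.C 1728) ^ (6 * hasseEps q) * f ^ 12, ?_⟩
    rw [hf, map_mul, map_mul, map_pow, map_pow, map_pow, map_sub, Polynomial.aeval_X,
      Polynomial.aeval_C]
    rw [map_ofNat (algebraMap (ZMod q) (LaurentSeries (ZMod q))) 1728]
  · have hq23 : q = 2 ∨ q = 3 := by
      have h2 := hq.two_le
      have hlt : q < 5 := by omega
      interval_cases q
      · exact Or.inl rfl
      · exact Or.inr rfl
      · exact absurd hq (by decide)
    have h240 : (240 : ZMod q) = 0 := by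
      have hdvd : q ∣ 240 := by
        rcases hq23 with rfl | rfl <;> decide
      have := (ZMod.natCast_eq_zero_iff 240 q).2 hdvd
      exact_mod_cast this
    refine ⟨X ^ (q - 1), ?_⟩
    rw [map_pow, Polynomial.aeval_X, jqModC_eq_deltaInvL_h438 (ZMod q) h240]

/-- **The Hasse polynomial exists over `ℤ`**: `H` monic of degree `q - 1` with
`Δ(t)/Δ(t^q) = H(j) + q · G` in `ℤ((t))`. -/
theorem exists_hassePoly (hq : q.Prime) :
    ∃ H : Polynomial ℤ, H.Monic ∧ H.natDegree = q - 1 ∧
      ∃ G : LaurentSeries ℤ,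
        H589.unitL' q = Polynomial.aeval (jqModC ℤ) H + HahnSeries.C (q : ℤ) * G := by
  have : Fact q.Prime := ⟨hq⟩
  obtain ⟨Hq, hHq⟩ := exists_hasseMod q hq
  obtain ⟨hmon, hdeg⟩ := monic_natDegree_of_aeval_eq (ZMod q) Hq (q - 1) hHq
  have hlift : Hq ∈ Polynomial.lifts (Int.castRingHom (ZMod q)) := by
    rw [Polynomial.mem_lifts]
    exact Polynomial.map_surjective _ (ZMod.intCast_surjective) Hq
  obtain ⟨H, hH, hHdeg, hHmon⟩ := Polynomial.lifts_and_natDegree_eq_and_monic hlift hmon
  refine ⟨H, hHmon, hHdeg.trans hdeg, ?_⟩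
  have h0 : coeffMap (Int.castRingHom (ZMod q))
      (H589.unitL' q - Polynomial.aeval (jqModC ℤ) H) = 0 := by
    have h1 : deltaL (ZMod q) * deltaInvL (ZMod q) = 1 := h88_deltaL_mul_deltaInvL (ZMod q)
    have hq1 : deltaInvL (ZMod q) ^ q = deltaInvL (ZMod q) ^ (q - 1) * deltaInvL (ZMod q) := by
      rw [← pow_succ, Nat.sub_add_cancel hq.one_le]
    rw [map_sub, Fermat.Agent.S36.Reg.H968.coeffMap_aeval, coeffMap_jqModC, hH, ← hHq,
      H589.unitL', map_mul, coeffMap_qExpand, h88_coeffMap_deltaL, h88_coeffMap_deltaInvL,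
      Fermat.Agent.A2.H528.qExpand_eq_pow_zmod, hq1]
    linear_combination (deltaInvL (ZMod q) ^ (q - 1)) * h1
  obtain ⟨G, hG⟩ := exists_eq_C_mul_of_coeffMap_zmod_eq_zero q _ h0
  exact ⟨G, by rw [← hG]; ring⟩

/-- **The Hasse polynomial** `H_q ∈ ℤ[X]` (a monic lift of the polynomial `H̄` with
`Δ̄^{-(q-1)} = H̄(j̄)`; `H̄ = X^{4δ} (X - 1728)^{6ε} f^{12}` for `q ≥ 5`, `H̄ = X^{q-1}` for `q ≤ 3`). -/
def hassePoly (hq : q.Prime) : Polynomial ℤ := (exists_hassePoly q hq).choose

theorem hassePoly_monic (hq : q.Prime) : (hassePoly q hq).Monic :=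
  (exists_hassePoly q hq).choose_spec.1

theorem hassePoly_natDegree (hq : q.Prime) : (hassePoly q hq).natDegree = q - 1 :=
  (exists_hassePoly q hq).choose_spec.2.1

/-- The integral remainder `G`: `Δ(t)/Δ(t^q) = H(j) + q · G`. -/
def hasseRem (hq : q.Prime) : LaurentSeries ℤ := (exists_hassePoly q hq).choose_spec.2.2.choose

theorem hassePoly_spec (hq : q.Prime) :
    H589.unitL' q = Polynomial.aeval (jqModC ℤ) (hassePoly q hq)
      + HahnSeries.C (q : ℤ) * hasseRem q hq :=
  (exists_hassePoly q hq).choose_spec.2.2.choose_spec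

/-- Reduction of the Hasse polynomial: `Δ̄^{-(q-1)} = H̄(j̄)` over any ring of characteristic `q`. -/
theorem hassePoly_red (hq : q.Prime) (k : Type*) [CommRing k] [CharP k q] :
    deltaInvL k ^ (q - 1) =
      Polynomial.aeval (jqModC k) ((hassePoly q hq).map (Int.castRingHom k)) := by
  have : Fact q.Prime := ⟨hq⟩
  have h := congrArg (coeffMap (Int.castRingHom k)) (hassePoly_spec q hq)
  have hqk : coeffMap (Int.castRingHom k) (HahnSeries.C (q : ℤ)) = 0 := by
    ext n
    rw [coeffMap_coeff, HahnSeries.coeff_zero]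
    by_cases hn : n = 0
    · subst hn
      rw [HahnSeries.C_apply, HahnSeries.coeff_single_same, eq_intCast, Int.cast_natCast]
      exact CharP.cast_eq_zero k q
    · rw [HahnSeries.C_apply, HahnSeries.coeff_single_of_ne hn, map_zero]
  rw [map_add, map_mul, hqk, zero_mul, add_zero, Fermat.Agent.S36.Reg.H968.coeffMap_aeval,
    coeffMap_jqModC] at h
  rw [← h]
  have h2 := congrArg (coeffMap (ZMod.castHom (dvd_refl q) k)) (show
    coeffMap (Int.castRingHom (ZMod q)) (H589.unitL' q) = deltaInvL (ZMod q) ^ (q - 1) from by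
      have h1 : deltaL (ZMod q) * deltaInvL (ZMod q) = 1 := h88_deltaL_mul_deltaInvL (ZMod q)
      have hq1 : deltaInvL (ZMod q) ^ q = deltaInvL (ZMod q) ^ (q - 1) * deltaInvL (ZMod q) := by
        rw [← pow_succ, Nat.sub_add_cancel hq.one_le]
      rw [H589.unitL', map_mul, coeffMap_qExpand, h88_coeffMap_deltaL, h88_coeffMap_deltaInvL,
        Fermat.Agent.A2.H528.qExpand_eq_pow_zmod, hq1]
      linear_combination (deltaInvL (ZMod q) ^ (q - 1)) * h1)
  rw [coeffMap_coeffMap, map_pow, h88_coeffMap_deltaInvL] at h2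
  rw [← h2]
  exact coeffMap_congr (Subsingleton.elim _ _) _

end Hasse

/-! ## 3. The congruence `D ≡ H(j_q)` on the second component -/

section FELevel

open Fermat.Agent.A2.Mod.H873

/-- Ring homomorphisms commute with the evaluation of integral polynomials
(for ANY `ℤ`-algebra structures). -/
theorem map_aeval_int {A B : Type*} [CommRing A] [CommRing B] [Algebra ℤ A] [Algebra ℤ B]
    (g : A →+* B) (a : A) (H : Polynomial ℤ) :
    g (Polynomial.aeval a H) = Polynomial.aeval (g a) H := by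
  rw [Polynomial.aeval_def, Polynomial.aeval_def, Polynomial.hom_eval₂]
  congr 1
  exact Subsingleton.elim _ _

variable (P : ValuationSubring Qb) (E : IntermediateField ℚ Qb)

/-- `t`-expansion of `H(j_d)`, `H ∈ ℤ[X]`. -/
theorem coe_aeval_jE (N d : ℕ) [NeZero d] (hd : d ∣ N) (H : Polynomial ℤ) :
    ((Polynomial.aeval (jE E N d hd) H : FE E N) : LaurentSeries E)
      = castE E (qExpand ℤ d (Polynomial.aeval (jqModC ℤ) H)) := by
  have h1 := map_aeval_int (algebraMap (FE E N) (LaurentSeries E)) (jE E N d hd) H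
  have h2 := map_aeval_int ((castE E).comp (qExpand ℤ d)) (jqModC ℤ) H
  have e1 : (algebraMap (FE E N) (LaurentSeries E)) (jE E N d hd)
      = ((castE E).comp (qExpand ℤ d)) (jqModC ℤ) := coe_jE_int E N d hd
  rw [e1] at h1
  exact h1.trans h2.symm

variable (N q M' : ℕ) [NeZero N] [NeZero q] [NeZero M']

/-- `W (H(j_q)) = H(j_{M'})` for the Fricke involution of level `N = q * M'`. -/
theorem fricke_aeval_jE (hN : N = q * M') (hqN : q ∣ N) (hM'N : M' ∣ N)
    (W : FE E N ≃ₐ[E] FE E N) (hW : IsFricke E N W) (H : Polynomial ℤ) :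
    W (Polynomial.aeval (jE E N q hqN) H) = Polynomial.aeval (jE E N M' hM'N) H := by
  have h1 := map_aeval_int (W : FE E N →+* FE E N) (jE E N q hqN) H
  have e1 : (W : FE E N →+* FE E N) (jE E N q hqN) = jE E N M' hM'N :=
    hW.1 q M' hqN hM'N hN.symm
  rw [e1] at h1
  exact h1

/-- **HUP, `t`-expansion form**: `W (D - H(j_q)) = q · G(t^{M'})`, `G ∈ ℤ((t))`. -/
theorem coe_fricke_dE_sub_hasse (hN : N = q * M') (hqN : q ∣ N) (hM'N : M' ∣ N) (hq : q.Prime)
    (W : FE E N ≃ₐ[E] FE E N) (hW : IsFricke E N W) :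
    ((W (dE E N q hqN - Polynomial.aeval (jE E N q hqN) (hassePoly q hq)) : FE E N) :
        LaurentSeries E)
      = castE E (qExpand ℤ M' (HahnSeries.C (q : ℤ) * hasseRem q hq)) := by
  rw [map_sub, fricke_aeval_jE E N q M' hN hqN hM'N W hW]
  show ((W (dE E N q hqN) : FE E N) : LaurentSeries E)
      - ((Polynomial.aeval (jE E N M' hM'N) (hassePoly q hq) : FE E N) : LaurentSeries E) = _
  rw [coe_fricke_dE E N q M' hN hqN W hW, coe_aeval_jE, ← map_sub, ← map_sub]
  congr 2
  rw [hassePoly_spec q hq]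
  ring

/-- The quotient `g = W (D - H(j_q)) / q` has the integral `t`-expansion `G(t^{M'})`. -/
theorem coe_fricke_dE_sub_hasse_div (hN : N = q * M') (hqN : q ∣ N) (hM'N : M' ∣ N)
    (hq : q.Prime) (W : FE E N ≃ₐ[E] FE E N) (hW : IsFricke E N W) :
    ((W ((dE E N q hqN - Polynomial.aeval (jE E N q hqN) (hassePoly q hq))
        * (algebraMap E (FE E N) (q : E))⁻¹) : FE E N) : LaurentSeries E)
      = castE E (qExpand ℤ M' (hasseRem q hq)) := by
  have hq0 : (q : E) ≠ 0 := Nat.cast_ne_zero.mpr (NeZero.ne q)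
  have hc0 : algebraMap E (FE E N) (q : E) ≠ 0 :=
    (map_ne_zero_iff _ (algebraMap E (FE E N)).injective).mpr hq0
  have hcoe : ((algebraMap E (FE E N) (q : E) : FE E N) : LaurentSeries E)
      = castE E (qExpand ℤ M' (HahnSeries.C (q : ℤ))) := by
    show algebraMap E (LaurentSeries E) (q : E) = _
    rw [map_natCast, map_natCast (HahnSeries.C : ℤ →+* LaurentSeries ℤ) q, map_natCast,
      map_natCast]
  have key : (W ((dE E N q hqN - Polynomial.aeval (jE E N q hqN) (hassePoly q hq))
        * (algebraMap E (FE E N) (q : E))⁻¹)) * algebraMap E (FE E N) (q : E)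
      = W (dE E N q hqN - Polynomial.aeval (jE E N q hqN) (hassePoly q hq)) := by
    rw [map_mul, map_inv₀, AlgEquiv.commutes, inv_mul_cancel_right₀ hc0]
  have key2 : ((W ((dE E N q hqN - Polynomial.aeval (jE E N q hqN) (hassePoly q hq))
        * (algebraMap E (FE E N) (q : E))⁻¹) : FE E N) : LaurentSeries E)
        * ((algebraMap E (FE E N) (q : E) : FE E N) : LaurentSeries E)
      = ((W (dE E N q hqN - Polynomial.aeval (jE E N q hqN) (hassePoly q hq)) : FE E N) :
        LaurentSeries E) := congrArg (fun f : FE E N => (f : LaurentSeries E)) key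
  have hR : castE E (qExpand ℤ M' (HahnSeries.C (q : ℤ) * hasseRem q hq))
      = castE E (qExpand ℤ M' (HahnSeries.C (q : ℤ))) * castE E (qExpand ℤ M' (hasseRem q hq)) := by
    rw [map_mul, map_mul]
  rw [coe_fricke_dE_sub_hasse E N q M' hN hqN hM'N hq W hW, hR, hcoe] at key2
  have hne : castE E (qExpand ℤ M' (HahnSeries.C (q : ℤ))) ≠ 0 := by
    rw [← hcoe]
    exact fun h => hc0 (Subtype.ext h)
  refine mul_right_cancel₀ hne ?_
  rw [key2, mul_comm]

/-- **HUP**: `(D - H(j_q)) / q ∈ V₀ = V∞.comap W`: on the second component `C₀` the unit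
`D = q¹² Δ(t^q)/Δ(t)` reduces to `H_q(j̄_q)`, `H_q` monic of degree `q - 1`. -/
theorem dE_sub_hasse_inW (hN : N = q * M') (hqN : q ∣ N) (hM'N : M' ∣ N) (hq : q.Prime)
    {V : ValuationSubring (FE E N)} (W : FE E N ≃ₐ[E] FE E N)
    (hV : IsVinf P E N V) (hW : IsFricke E N W) :
    (dE E N q hqN - Polynomial.aeval (jE E N q hqN) (hassePoly q hq))
        * (algebraMap E (FE E N) (q : E))⁻¹ ∈ V.comap (W : FE E N →+* FE E N) := by
  show W _ ∈ V
  exact mem_vinf_of_coe_eq_castE P E hV
    (coe_fricke_dE_sub_hasse_div E N q M' hN hqN hM'N hq W hW)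

end FELevel

/-! ## 4. Uniformiser and chart forms -/

section ChartForm

open Fermat.Agent.A2.Mod.H873

variable (P : ValuationSubring Qb) (E : IntermediateField ℚ Qb)

/-- `q` lies in the maximal ideal of `R_E` when `P` lies over `q`. -/
theorem natCast_mem_maximalIdeal_h438 {q : ℕ} (hP : P.LiesOverPrime q) :
    (q : RE P E) ∈ IsLocalRing.maximalIdeal (RE P E) := by
  rw [IsLocalRing.mem_maximalIdeal, mem_nonunits_iff]
  intro hu
  obtain ⟨u, hu⟩ := hu.exists_right_inv
  have h1 : ((q : RE P E) : E) * (u : E) = 1 := by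
    have := congrArg (fun z : RE P E => (z : E)) hu
    simpa using this
  have h2 : (q : Qb) * algebraMap E Qb (u : E) = 1 := by
    have := congrArg (algebraMap E Qb) h1
    simpa using this
  have hmem : algebraMap E Qb (u : E) ∈ P := u.2
  have hq : (q : Qb) ∈ P := natCast_mem P q
  have hunit : IsUnit (⟨(q : Qb), hq⟩ : P) := by
    refine IsUnit.of_mul_eq_one (⟨algebraMap E Qb (u : E), hmem⟩ : P) ?_
    exact Subtype.ext h2
  have h3 : ((⟨(q : Qb), hq⟩ : P) : Qb) ∈ P.nonunits := hP
  rw [ValuationSubring.coe_mem_nonunits_iff, IsLocalRing.mem_maximalIdeal, mem_nonunits_iff] at h3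
  exact h3 hunit

/-- In a `Setting` the uniformiser divides `q`. -/
theorem unif_dvd_natCast {M q : ℕ} {w : RE P E} (hS : Setting P E M q w) :
    w ∣ (q : RE P E) := by
  haveI := hS.dvr
  have h := natCast_mem_maximalIdeal_h438 P E hS.lies_over
  rw [hS.unif.maximalIdeal_eq, Ideal.mem_span_singleton] at h
  exact h

variable (N q M' : ℕ) [NeZero N] [NeZero q] [NeZero M']

/-- **HUP, uniformiser form**: `D - H(j_q) ∈ w · V₀` for every `w ∈ R_E` dividing `q`. -/
theorem dE_sub_hasse_inW_unif (hN : N = q * M') (hqN : q ∣ N) (hM'N : M' ∣ N) (hq : q.Prime)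
    (w : RE P E) (hwq : w ∣ (q : RE P E))
    {V : ValuationSubring (FE E N)} (W : FE E N ≃ₐ[E] FE E N)
    (hV : IsVinf P E N V) (hW : IsFricke E N W) :
    InW P E N (V.comap (W : FE E N →+* FE E N)) w
      (dE E N q hqN - Polynomial.aeval (jE E N q hqN) (hassePoly q hq)) := by
  obtain ⟨r, hr⟩ := hwq
  have hq0 : (q : E) ≠ 0 := Nat.cast_ne_zero.mpr (NeZero.ne q)
  have hqE : (q : E) = (w : E) * (r : E) := by
    have := congrArg (fun z : RE P E => (z : E)) hr
    simpa using this
  have hw0 : (w : E) ≠ 0 := fun h => hq0 (by rw [hqE, h, zero_mul])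
  have hr0 : (r : E) ≠ 0 := fun h => hq0 (by rw [hqE, h, mul_zero])
  have h1 := dE_sub_hasse_inW P E N q M' hN hqN hM'N hq W hV hW
  have h2 : cE P E N r ∈ V.comap (W : FE E N →+* FE E N) := by
    show W (cE P E N r) ∈ V
    rw [cE, AlgEquiv.commutes]
    exact Fermat.Agent.A2.Mod.H378.cE_mem hV r
  have h3 := (V.comap (W : FE E N →+* FE E N)).mul_mem _ _ h1 h2
  have e : (dE E N q hqN - Polynomial.aeval (jE E N q hqN) (hassePoly q hq))
        * (algebraMap E (FE E N) (q : E))⁻¹ * cE P E N r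
      = (dE E N q hqN - Polynomial.aeval (jE E N q hqN) (hassePoly q hq))
        * (cE P E N w)⁻¹ := by
    have hcw : cE P E N w ≠ 0 := (map_ne_zero_iff _ (algebraMap E (FE E N)).injective).mpr hw0
    have hcr : cE P E N r ≠ 0 := (map_ne_zero_iff _ (algebraMap E (FE E N)).injective).mpr hr0
    have hcq : algebraMap E (FE E N) (q : E) = cE P E N w * cE P E N r := by
      rw [cE, cE, ← map_mul, hqE]
    rw [hcq, mul_inv, mul_assoc, mul_assoc, inv_mul_cancel₀ hcr, mul_one]
  rw [e] at h3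
  exact h3

variable (M : ℕ) [NeZero M]

/-- `j` and `j_q` lie in the finite chart of `x = j · j_q`. -/
theorem jE_mem_chartAlg (hq : q.Prime) :
    jE E (M * q) 1 (one_dvd _) ∈ chartAlg P E (M * q) (xE E M q) ∧
      jE E (M * q) q (dvd_mul_left q M) ∈ chartAlg P E (M * q) (xE E M q) := by
  constructor
  · rw [← Fermat.Agent.A2.Mod.H142.mem_chart_iff]
    refine isIntegralElem_of_isIntegral_closure _
      (isIntegral_closure_of_forall_valuationSubring fun V hx => ?_)
    exact (j_mem_of_x_mem E M q hq V hx).1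
  · rw [← Fermat.Agent.A2.Mod.H142.mem_chart_iff]
    refine isIntegralElem_of_isIntegral_closure _
      (isIntegral_closure_of_forall_valuationSubring fun V hx => ?_)
    exact (j_mem_of_x_mem E M q hq V hx).2

/-- `H(j_q)` lies in the finite chart, `H ∈ ℤ[X]`. -/
theorem aeval_jqE_mem_chartAlg (hq : q.Prime) (H : Polynomial ℤ) :
    Polynomial.aeval (jE E (M * q) q (dvd_mul_left q M)) H
      ∈ chartAlg P E (M * q) (xE E M q) := by
  have hj := (jE_mem_chartAlg P E q M hq).2
  have h := map_aeval_int (chartAlg P E (M * q) (xE E M q)).val.toRingHom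
    (⟨_, hj⟩ : chartAlg P E (M * q) (xE E M q)) H
  have e : (chartAlg P E (M * q) (xE E M q)).val.toRingHom
      (⟨_, hj⟩ : chartAlg P E (M * q) (xE E M q)) = jE E (M * q) q (dvd_mul_left q M) := rfl
  rw [e] at h
  rw [← h]
  exact Subtype.mem _

/-- **HUP, chart form** (level `M * q`, `B = chartAlg x`, `p₀` the cut of `V₀ = V∞.comap W`):
`D - H(j_q) ∈ p₀`, i.e. `D ≡ H_q(j_q)` in `B / p₀`. -/
theorem dE_sub_hasse_mem_cut (hq : q.Prime) (w : RE P E) (hwq : w ∣ (q : RE P E))
    {V : ValuationSubring (FE E (M * q))} (W : FE E (M * q) ≃ₐ[E] FE E (M * q))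
    (hV : IsVinf P E (M * q) V) (hW : IsFricke E (M * q) W)
    (p₀ : Ideal (chartAlg P E (M * q) (xE E M q)))
    (hp₀ : IsCut P E (M * q) w (V.comap (W : FE E (M * q) →+* FE E (M * q)))
      (chartAlg P E (M * q) (xE E M q)) p₀) :
    (⟨dE E (M * q) q (dvd_mul_left q M), dE_mem_chartAlg P E M q hq⟩
        - ⟨Polynomial.aeval (jE E (M * q) q (dvd_mul_left q M)) (hassePoly q hq),
            aeval_jqE_mem_chartAlg P E q M hq _⟩ : chartAlg P E (M * q) (xE E M q)) ∈ p₀ := by
  rw [hp₀]
  exact dE_sub_hasse_inW_unif P E (M * q) q M (Nat.mul_comm M q) (dvd_mul_left q M)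
    (dvd_mul_right M q) hq w hwq W hV hW

end ChartForm

end Fermat.Agent.S36.H438

end
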